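/-
RIBET row, piece R0 / P4 (helper344): bookkeeping between the Prelude modularity predicates
(`WeierstrassCurve.IsResiduallyModularOfLevel`, `FreyPackage.ModularRepOfLevel`,
`ModularCurve.IsEigenformIdeal`) and MAXIMAL IDEALS of the abstract Hecke algebra
`ModularCurve.HeckeAlg = ℤ[X_ℓ : ℓ prime]` containing the kernel of its action
`CuspForm.heckeEvalForms M 2` on `S₂(Γ₀(M))`.

* `isEigenformIdeal_of_isMaximal` : every maximal ideal `𝔪 ⊇ ker (heckeEvalForms M 2)` is an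
  eigenform ideal (Deligne–Serre lifting lemma in Prelude vocabulary).
* `isResiduallyModularOfLevel_of_isMaximal` : such an `𝔪` containing `p` and the elements
  `X_ℓ - a_ℓ(W)` (good `ℓ ∤ M`, `ℓ ≠ p`) gives `W.IsResiduallyModularOfLevel p M`.
* `exists_isMaximal_of_isResiduallyModularOfLevel` : the converse.
* `modularRepOfLevel_iff` : the Frey-package form.
-/
import Mathlib
import Fermat.Prelude.Def_ModularCurve_EigenformIdeal
import Fermat.Prelude.Def_CuspForm_HeckeEvalForms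
import Fermat.Prelude.Def_FLTPrelim_ModularRep
import Fermat.Agent.S22
import Fermat.Agent.S49.LinAlg
import Fermat.Agent.S49.GoingUp
import Fermat.Agent.Lib.Newform.H683.Eigen
import Fermat.Agent.Lib.Newform.H683.FinDim

set_option autoImplicit false

open CongruenceSubgroup ModularFormClass ModularForm UpperHalfPlane ModularCurve

namespace Fermat.Agent.Ribet.H344

open Fermat.Agent.Lib.Newform

variable {M : ℕ} [NeZero M]

/-- The action of the abstract Hecke algebra on weight-2 cusp forms of level `M`. -/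
noncomputable def heckeRho (M : ℕ) [NeZero M] :
    HeckeAlg →+* Module.End ℂ (CuspForm (Gamma0 M) 2) :=
  (CuspForm.heckeAlgebra M 2 (∅ : Set ℕ)).val.toRingHom.comp (CuspForm.heckeEvalForms M 2)

theorem heckeRho_apply (t : HeckeAlg) :
    heckeRho M t = ((CuspForm.heckeEvalForms M 2 t : CuspForm.heckeAlgebra M 2 (∅ : Set ℕ)) :
      Module.End ℂ (CuspForm (Gamma0 M) 2)) := rfl

theorem ker_heckeRho : RingHom.ker (heckeRho M) = RingHom.ker (CuspForm.heckeEvalForms M 2) := by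
  ext t
  simp only [RingHom.mem_ker, heckeRho_apply]
  constructor
  · intro h
    exact Subtype.ext h
  · intro h
    rw [h]; rfl

theorem heckeRho_heckeGen_of_not_dvd {ℓ : ℕ} (hℓ : ℓ.Prime) (hℓM : ¬ ℓ ∣ M) :
    heckeRho M (heckeGen ⟨ℓ, hℓ⟩) = CuspForm.heckeTLin 2 hℓ hℓM := by
  rw [heckeRho_apply, CuspForm.heckeEvalForms_heckeGen_of_not_dvd (ℓ := ⟨ℓ, hℓ⟩) hℓM]
  rfl

theorem heckeRho_heckeGen_of_dvd {ℓ : ℕ} (hℓ : ℓ.Prime) (hℓM : ℓ ∣ M) :
    heckeRho M (heckeGen ⟨ℓ, hℓ⟩) = CuspForm.heckeULin 2 hℓM := by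
  rw [heckeRho_apply, CuspForm.heckeEvalForms_heckeGen_of_dvd (q := ⟨ℓ, hℓ⟩) hℓM]
  rfl

/-- A normalised eigenform is a simultaneous eigenvector of the whole abstract Hecke algebra, with
eigencharacter `X_ℓ ↦ a_ℓ(f)`. -/
theorem heckeRho_apply_eigenform {f : CuspForm (Gamma0 M) 2} (hf : f.IsNormalizedEigenform)
    (t : HeckeAlg) :
    heckeRho M t f = (MvPolynomial.aeval (fun ℓ : Nat.Primes => qCoeff ⇑f ℓ) t : ℂ) • f := by
  induction t using MvPolynomial.induction_on with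
  | C a =>
    rw [MvPolynomial.aeval_C]
    have : heckeRho M (MvPolynomial.C a) = algebraMap ℤ _ a := by
      rw [← MvPolynomial.algebraMap_eq]; exact map_intCast _ a |>.trans (by simp)
    rw [this]
    simp only [eq_intCast]
    exact (Int.cast_smul_eq_zsmul ℂ a f).symm
  | add p q hp hq =>
    rw [map_add, map_add, LinearMap.add_apply, hp, hq, add_smul]
  | mul_X p ℓ hp =>
    rw [map_mul, map_mul, Module.End.mul_apply, MvPolynomial.aeval_X]
    have hgen : heckeRho M (MvPolynomial.X ℓ) f = qCoeff ⇑f ℓ • f := by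
      obtain ⟨ℓ, hℓ⟩ := ℓ
      by_cases hℓM : ℓ ∣ M
      · have := heckeRho_heckeGen_of_dvd (M := M) hℓ hℓM
        unfold heckeGen at this
        rw [this]
        exact H683.heckeULin_eq_of_eigenform hf hℓ hℓM
      · have := heckeRho_heckeGen_of_not_dvd (M := M) hℓ hℓM
        unfold heckeGen at this
        rw [this]
        exact H683.heckeTLin_eq_of_eigenform hf hℓ hℓM
    rw [hgen, map_smul, hp, smul_smul, mul_comm]


/-- Values of a character of `HeckeAlg` that factors through the Hecke algebra of level `M` are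
algebraic integers (landed S22: the Hecke algebra is a finite `ℤ`-module). -/
theorem isIntegral_of_ker_le (χ : HeckeAlg →+* ℂ)
    (h : RingHom.ker (CuspForm.heckeEvalForms M 2) ≤ RingHom.ker χ) (t : HeckeAlg) :
    IsIntegral ℤ (χ t) := by
  have : Module.Finite ℤ (CuspForm.heckeAlgebra M 2 (∅ : Set ℕ)) :=
    Fermat.Agent.S22.result M 2 ∅
  obtain ⟨P, hPm, hP⟩ := IsIntegral.of_finite ℤ (CuspForm.heckeEvalForms M 2 t)
  refine ⟨P, hPm, ?_⟩
  have h1 : CuspForm.heckeEvalForms M 2 (Polynomial.eval₂ (algebraMap ℤ HeckeAlg) t P) = 0 := by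
    rw [Polynomial.hom_eval₂]
    have : (CuspForm.heckeEvalForms M 2).comp (algebraMap ℤ HeckeAlg)
        = algebraMap ℤ (CuspForm.heckeAlgebra M 2 (∅ : Set ℕ)) := RingHom.ext_int _ _
    rw [this]
    exact hP
  have h2 : χ (Polynomial.eval₂ (algebraMap ℤ HeckeAlg) t P) = 0 := h h1
  rw [Polynomial.hom_eval₂] at h2
  have : χ.comp (algebraMap ℤ HeckeAlg) = algebraMap ℤ ℂ := RingHom.ext_int _ _
  rw [this] at h2
  exact h2

/-- **Core.**  A prime ideal of `HeckeAlg` containing the kernel of the action on `S₂(Γ₀(M))`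
contains the kernel of the eigencharacter of some normalised eigenform. -/
theorem exists_eigenform_of_ker_le (𝔪 : Ideal HeckeAlg) [𝔪.IsPrime]
    (hker : RingHom.ker (CuspForm.heckeEvalForms M 2) ≤ 𝔪) :
    ∃ (f : CuspForm (Gamma0 M) 2) (χ : HeckeAlg →+* ℂ), f.IsNormalizedEigenform ∧
      (∀ ℓ : Nat.Primes, χ (heckeGen ℓ) = qCoeff ⇑f ℓ) ∧ RingHom.ker χ ≤ 𝔪 ∧
      RingHom.ker (CuspForm.heckeEvalForms M 2) ≤ RingHom.ker χ := by
  have := H683.finiteDimensional_cuspForm M 2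
  have hρ : RingHom.ker (heckeRho M) ≤ 𝔪 := by rw [ker_heckeRho]; exact hker
  obtain ⟨g, χ, hg, hχ, hkerχ⟩ := Fermat.Agent.S49.exists_eigenvector_ker_le' (heckeRho M) 𝔪 hρ
  have hT : ∀ p : ℕ, (hp : p.Prime) → ¬ p ∣ M →
      heckeT 2 p ⇑g = χ (heckeGen ⟨p, hp⟩) • ⇑g := by
    intro p hp hpM
    have h1 := hχ (heckeGen ⟨p, hp⟩)
    rw [heckeRho_heckeGen_of_not_dvd hp hpM] at h1
    have := congrArg (fun F : CuspForm (Gamma0 M) 2 => (⇑F : ℍ → ℂ)) h1
    simpa using this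
  have hU : ∀ p : ℕ, (hp : p.Prime) → p ∣ M →
      heckeU 2 p ⇑g = χ (heckeGen ⟨p, hp⟩) • ⇑g := by
    intro p hp hpM
    have h1 := hχ (heckeGen ⟨p, hp⟩)
    rw [heckeRho_heckeGen_of_dvd hp hpM] at h1
    have := congrArg (fun F : CuspForm (Gamma0 M) 2 => (⇑F : ℍ → ℂ)) h1
    simpa using this
  have h1 : qCoeff ⇑g 1 ≠ 0 := fun h0 =>
    hg (H683.eq_zero_of_eigen_of_coeff_one_eq_zero g (fun p hp hpM => ⟨_, hT p hp hpM⟩)
      (fun p hp hpM => ⟨_, hU p hp hpM⟩) h0)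
  set c₀ : ℂ := (qCoeff ⇑g 1)⁻¹ with hc₀
  have hf1 : qCoeff ⇑(c₀ • g) 1 = 1 := by
    rw [H683.qCoeff_smul_cusp, hc₀, inv_mul_cancel₀ h1]
  have hT' : ∀ p : ℕ, (hp : p.Prime) → ¬ p ∣ M →
      heckeT 2 p ⇑(c₀ • g) = χ (heckeGen ⟨p, hp⟩) • ⇑(c₀ • g) := by
    intro p hp hpM
    rw [FunLike.coe_smul, heckeT_smul, hT p hp hpM, smul_comm]
  have hU' : ∀ p : ℕ, (hp : p.Prime) → p ∣ M →
      heckeU 2 p ⇑(c₀ • g) = χ (heckeGen ⟨p, hp⟩) • ⇑(c₀ • g) := by
    intro p hp hpM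
    rw [FunLike.coe_smul, heckeU_smul, hU p hp hpM, smul_comm]
  refine ⟨c₀ • g, χ, ?_, ?_, hkerχ, ?_⟩
  · exact H683.isNormalizedEigenform_of_eigen _ hf1 (fun p hp hpM => ⟨_, hT' p hp hpM⟩)
      (fun p hp hpM => ⟨_, hU' p hp hpM⟩)
  · rintro ⟨ℓ, hℓ⟩
    by_cases hℓM : ℓ ∣ M
    · exact H683.eigenvalue_U_eq_coeff _ hf1 hℓ _ (hU' ℓ hℓ hℓM)
    · exact H683.eigenvalue_T_eq_coeff _ hf1 hℓ _ (hT' ℓ hℓ hℓM)
  · intro t ht
    rw [RingHom.mem_ker] at ht ⊢
    have h2 := hχ t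
    rw [heckeRho_apply, ht] at h2
    have h3 : χ t • g = 0 := by rw [← h2]; rfl
    rcases smul_eq_zero.mp h3 with h | h
    · exact h
    · exact absurd h hg


/-- A field which is a finitely generated `ℤ`-module is finite. -/
theorem finite_of_field_of_moduleFinite_int (k : Type*) [Field k] [Module.Finite ℤ k] :
    Finite k := by
  apply Module.finite_of_fg_torsion
  -- the characteristic is positive
  have hchar : ∃ n : ℤ, n ≠ 0 ∧ (n : k) = 0 := by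
    by_contra hcon
    push Not at hcon
    have hinj : Function.Injective (algebraMap ℤ k) := by
      rw [injective_iff_map_eq_zero]
      intro a ha
      by_contra ha0
      exact hcon a ha0 (by simpa using ha)
    have : Algebra.IsIntegral ℤ k := ⟨fun x => IsIntegral.of_finite ℤ x⟩
    exact Int.not_isField (isField_of_isIntegral_of_isField hinj (Field.toIsField k))
  obtain ⟨n, hn0, hn⟩ := hchar
  intro x
  refine ⟨⟨n, mem_nonZeroDivisors_of_ne_zero hn0⟩, ?_⟩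
  change n • x = 0
  rw [← Int.cast_smul_eq_zsmul k n x, hn, zero_smul]

/-- The residue field of a maximal ideal of `HeckeAlg` containing the kernel of the action on
`S₂(Γ₀(M))` is finite. -/
theorem finite_quotient_of_ker_le (𝔪 : Ideal HeckeAlg) [𝔪.IsMaximal]
    (hker : RingHom.ker (CuspForm.heckeEvalForms M 2) ≤ 𝔪) : Finite (HeckeAlg ⧸ 𝔪) := by
  have hfin : Module.Finite ℤ (CuspForm.heckeAlgebra M 2 (∅ : Set ℕ)) :=
    Fermat.Agent.S22.result M 2 ∅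
  have hnoeth : IsNoetherian ℤ (CuspForm.heckeAlgebra M 2 (∅ : Set ℕ)) :=
    isNoetherian_of_isNoetherianRing_of_finite ℤ _
  let e : HeckeAlg →ₐ[ℤ] CuspForm.heckeAlgebra M 2 (∅ : Set ℕ) :=
    (CuspForm.heckeEvalForms M 2).toIntAlgHom
  have hB : Module.Finite ℤ e.range :=
    Module.Finite.of_injective e.range.val.toLinearMap Subtype.val_injective
  let π : HeckeAlg →ₐ[ℤ] (HeckeAlg ⧸ 𝔪) := Ideal.Quotient.mkₐ ℤ 𝔪
  have H : RingHom.ker e.rangeRestrict.toRingHom ≤ RingHom.ker π.toRingHom := by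
    intro t ht
    rw [RingHom.mem_ker] at ht ⊢
    have h1 : CuspForm.heckeEvalForms M 2 t = 0 := congrArg Subtype.val ht
    have h2 : t ∈ 𝔪 := hker h1
    exact Ideal.Quotient.eq_zero_iff_mem.mpr h2
  let g := AlgHom.liftOfSurjective e.rangeRestrict (AlgHom.rangeRestrict_surjective e) π H
  have hg : Function.Surjective g :=
    AlgHom.liftOfSurjective_surjective _ _ _ _ (Ideal.Quotient.mkₐ_surjective ℤ 𝔪)
  have : Module.Finite ℤ (HeckeAlg ⧸ 𝔪) := Module.Finite.of_surjective g.toLinearMap hg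
  let _ : Field (HeckeAlg ⧸ 𝔪) := Ideal.Quotient.field 𝔪
  exact finite_of_field_of_moduleFinite_int _

/-- **Deligne–Serre lifting lemma, Prelude vocabulary.**  Every maximal ideal of the abstract Hecke
algebra containing the kernel of its action on `S₂(Γ₀(M))` is an eigenform ideal of level `M`. -/
theorem isEigenformIdeal_of_isMaximal (𝔪 : Ideal HeckeAlg) [h𝔪 : 𝔪.IsMaximal]
    (hker : RingHom.ker (CuspForm.heckeEvalForms M 2) ≤ 𝔪) : IsEigenformIdeal M 𝔪 := by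
  obtain ⟨f, χ, hf, hχ, hkerχ, -⟩ := exists_eigenform_of_ker_le 𝔪 hker
  let _ : Field (HeckeAlg ⧸ 𝔪) := Ideal.Quotient.field 𝔪
  have hfin : Finite (HeckeAlg ⧸ 𝔪) := finite_quotient_of_ker_le 𝔪 hker
  have h𝒪 : ∀ ℓ : Nat.Primes, qCoeff ⇑f ℓ ∈ χ.range := fun ℓ => ⟨heckeGen ℓ, hχ ℓ⟩
  have H : RingHom.ker χ.rangeRestrict ≤ RingHom.ker (Ideal.Quotient.mk 𝔪) := by
    intro t ht
    rw [RingHom.mem_ker] at ht ⊢
    have h1 : χ t = 0 := congrArg Subtype.val ht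
    exact Ideal.Quotient.eq_zero_iff_mem.mpr (hkerχ h1)
  let φ : χ.range →+* (HeckeAlg ⧸ 𝔪) :=
    RingHom.liftOfSurjective χ.rangeRestrict χ.rangeRestrict_surjective
      ⟨Ideal.Quotient.mk 𝔪, H⟩
  have hφ : ∀ t : HeckeAlg, φ (χ.rangeRestrict t) = Ideal.Quotient.mk 𝔪 t := fun t =>
    RingHom.liftOfRightInverse_comp_apply _ _ _ ⟨Ideal.Quotient.mk 𝔪, H⟩ t
  refine ⟨f, hf, HeckeAlg ⧸ 𝔪, inferInstance, hfin, χ.range, h𝒪, φ, ?_⟩
  have hev : (MvPolynomial.aeval (R := ℤ) (fun ℓ : Nat.Primes => φ ⟨qCoeff ⇑f ℓ, h𝒪 ℓ⟩)).toRingHom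
      = Ideal.Quotient.mk 𝔪 := by
    apply MvPolynomial.ringHom_ext
    · intro r
      simp
    · intro ℓ
      have h1 : (⟨qCoeff ⇑f ℓ, h𝒪 ℓ⟩ : χ.range) = χ.rangeRestrict (heckeGen ℓ) :=
        Subtype.ext (hχ ℓ).symm
      simp only [AlgHom.toRingHom_eq_coe, RingHom.coe_coe, MvPolynomial.aeval_X]
      rw [h1, hφ]
      rfl
  ext t
  rw [mem_eigenIdeal_iff]
  have ht' : MvPolynomial.aeval (R := ℤ) (fun ℓ : Nat.Primes => φ ⟨qCoeff ⇑f ℓ, h𝒪 ℓ⟩) t
      = Ideal.Quotient.mk 𝔪 t := congrArg (fun F : HeckeAlg →+* (HeckeAlg ⧸ 𝔪) => F t) hev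
  constructor
  · intro ht
    exact ht'.trans (Ideal.Quotient.eq_zero_iff_mem.mpr ht)
  · intro ht
    exact Ideal.Quotient.eq_zero_iff_mem.mp (ht'.symm.trans ht)


/-- The congruence conditions defining residual modularity, on the side of `HeckeAlg`. -/
def CongruentTo (W : WeierstrassCurve ℤ) (p M : ℕ) (𝔪 : Ideal HeckeAlg) : Prop :=
  ∀ ℓ : Nat.Primes, W.IsGoodPrimeFor ℓ → ¬ (ℓ : ℕ) ∣ M → (ℓ : ℕ) ≠ p →
    heckeGen ℓ - MvPolynomial.C (W.apOfModel ℓ) ∈ 𝔪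

/-- **Ideal ⇒ residual modularity.**  A maximal ideal of `HeckeAlg` containing the kernel of the
action on `S₂(Γ₀(M))`, the prime `p` and the elements `X_ℓ - a_ℓ(W)` for the good primes
`ℓ ∤ M`, `ℓ ≠ p` of `W` witnesses `W.IsResiduallyModularOfLevel p M`. -/
theorem isResiduallyModularOfLevel_of_isMaximal (W : WeierstrassCurve ℤ) (p : ℕ)
    (𝔪 : Ideal HeckeAlg) [h𝔪 : 𝔪.IsMaximal] (hp : (p : HeckeAlg) ∈ 𝔪)
    (hker : RingHom.ker (CuspForm.heckeEvalForms M 2) ≤ 𝔪) (hcong : CongruentTo W p M 𝔪) :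
    W.IsResiduallyModularOfLevel p M := by
  obtain ⟨f, χ, hf, hχ, hkerχ, hkerρ⟩ := exists_eigenform_of_ker_le 𝔪 hker
  have hint : ∀ t, χ t ∈ integralClosure ℤ ℂ := fun t => isIntegral_of_ker_le χ hkerρ t
  let χ' : HeckeAlg →+* integralClosure ℤ ℂ :=
    χ.codRestrict (integralClosure ℤ ℂ).toSubring hint
  have hχ' : ∀ t, ((χ' t : integralClosure ℤ ℂ) : ℂ) = χ t := fun t => rfl
  have hker' : RingHom.ker χ' ≤ 𝔪 := by
    intro t ht
    apply hkerχ
    rw [RingHom.mem_ker] at ht ⊢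
    rw [← hχ', ht]
    rfl
  obtain ⟨𝔪', h𝔪', hover⟩ := Fermat.Agent.S49.exists_maximal_over χ' 𝔪 hker'
  refine ⟨f, 𝔪', hf, h𝔪', ?_, ?_⟩
  · have h1 := hover _ hp
    rwa [map_natCast] at h1
  · intro ℓ hℓ hgood hℓM hℓp
    refine ⟨χ' (heckeGen ⟨ℓ, hℓ⟩), ?_, ?_⟩
    · exact (hχ' _).trans (hχ ⟨ℓ, hℓ⟩)
    · have h1 := hover _ (hcong ⟨ℓ, hℓ⟩ hgood hℓM hℓp)
      rw [map_sub] at h1
      have h2 : χ' (MvPolynomial.C (W.apOfModel ℓ))
          = ((W.apOfModel ℓ : ℤ) : integralClosure ℤ ℂ) := by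
        rw [← MvPolynomial.algebraMap_eq, eq_intCast, map_intCast]
      rwa [h2] at h1

/-- **Residual modularity ⇒ ideal.**  Converse of `isResiduallyModularOfLevel_of_isMaximal`. -/
theorem exists_isMaximal_of_isResiduallyModularOfLevel (W : WeierstrassCurve ℤ) (p : ℕ)
    (h : W.IsResiduallyModularOfLevel p M) :
    ∃ 𝔪 : Ideal HeckeAlg, 𝔪.IsMaximal ∧ (p : HeckeAlg) ∈ 𝔪 ∧
      RingHom.ker (CuspForm.heckeEvalForms M 2) ≤ 𝔪 ∧ CongruentTo W p M 𝔪 := by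
  obtain ⟨f, 𝔪', hf, h𝔪', hp, hcong⟩ := h
  -- the eigencharacter of `f`
  let χ : HeckeAlg →+* ℂ :=
    (MvPolynomial.aeval (R := ℤ) (fun ℓ : Nat.Primes => qCoeff ⇑f ℓ)).toRingHom
  have hχgen : ∀ ℓ : Nat.Primes, χ (heckeGen ℓ) = qCoeff ⇑f ℓ := fun ℓ =>
    MvPolynomial.aeval_X _ ℓ
  have hχ : ∀ t, heckeRho M t f = χ t • f := fun t => heckeRho_apply_eigenform hf t
  have hf0 : f ≠ 0 := hf.ne_zero
  have hkerρ : RingHom.ker (CuspForm.heckeEvalForms M 2) ≤ RingHom.ker χ := by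
    intro t ht
    rw [RingHom.mem_ker] at ht ⊢
    have h2 := hχ t
    rw [heckeRho_apply, ht] at h2
    have h3 : χ t • f = 0 := by rw [← h2]; rfl
    rcases smul_eq_zero.mp h3 with h | h
    · exact h
    · exact absurd h hf0
  have hint : ∀ t, χ t ∈ integralClosure ℤ ℂ := fun t => isIntegral_of_ker_le χ hkerρ t
  let χ' : HeckeAlg →+* integralClosure ℤ ℂ :=
    χ.codRestrict (integralClosure ℤ ℂ).toSubring hint
  have hχ' : ∀ t, ((χ' t : integralClosure ℤ ℂ) : ℂ) = χ t := fun t => rfl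
  -- the maximal ideal: pull `𝔪'` back to the range of `χ'`, then to `HeckeAlg`
  let _ : Algebra χ'.range (integralClosure ℤ ℂ) := (χ'.range.subtype).toAlgebra
  have hintR : Algebra.IsIntegral χ'.range (integralClosure ℤ ℂ) :=
    ⟨fun x => (Algebra.IsIntegral.isIntegral (R := ℤ) x).tower_top⟩
  have := h𝔪'
  have hmaxR : (𝔪'.comap (algebraMap χ'.range (integralClosure ℤ ℂ))).IsMaximal :=
    Ideal.isMaximal_comap_of_isIntegral_of_isMaximal 𝔪'
  have hmax : ((𝔪'.comap (algebraMap χ'.range (integralClosure ℤ ℂ))).comap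
      χ'.rangeRestrict).IsMaximal :=
    Ideal.comap_isMaximal_of_surjective _ χ'.rangeRestrict_surjective
  have hmem : ∀ t : HeckeAlg, t ∈ ((𝔪'.comap (algebraMap χ'.range (integralClosure ℤ ℂ))).comap
      χ'.rangeRestrict) ↔ χ' t ∈ 𝔪' := fun t => Iff.rfl
  refine ⟨_, hmax, ?_, ?_, ?_⟩
  · rw [hmem, map_natCast]
    exact hp
  · intro t ht
    rw [hmem]
    have h1 : χ' t = 0 := Subtype.ext (hkerρ ht)
    rw [h1]
    exact 𝔪'.zero_mem
  · intro ℓ hgood hℓM hℓp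
    rw [hmem]
    obtain ⟨a, ha, ha'⟩ := hcong ℓ ℓ.2 hgood hℓM hℓp
    have h1 : χ' (heckeGen ℓ) = a := Subtype.ext (by rw [hχ', hχgen, ha])
    have h2 : χ' (MvPolynomial.C (W.apOfModel ℓ))
        = ((W.apOfModel ℓ : ℤ) : integralClosure ℤ ℂ) := by
      rw [← MvPolynomial.algebraMap_eq, eq_intCast, map_intCast]
    rw [map_sub, h1, h2]
    exact ha'

/-- Residual modularity of level `M` in terms of maximal ideals of `HeckeAlg`. -/
theorem isResiduallyModularOfLevel_iff (W : WeierstrassCurve ℤ) (p : ℕ) :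
    W.IsResiduallyModularOfLevel p M ↔
      ∃ 𝔪 : Ideal HeckeAlg, 𝔪.IsMaximal ∧ (p : HeckeAlg) ∈ 𝔪 ∧
        RingHom.ker (CuspForm.heckeEvalForms M 2) ≤ 𝔪 ∧ CongruentTo W p M 𝔪 :=
  ⟨exists_isMaximal_of_isResiduallyModularOfLevel W p, fun ⟨𝔪, h𝔪, hp, hker, hcong⟩ =>
    have := h𝔪; isResiduallyModularOfLevel_of_isMaximal W p 𝔪 hp hker hcong⟩

omit [NeZero M] in
/-- The Frey-package predicate is residual modularity of some integral model. -/
theorem modularRepOfLevel_iff_exists_model (P : FreyPackage) :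
    P.ModularRepOfLevel M ↔
      ∃ W : WeierstrassCurve ℤ, W.IsIntegralModelOf P.freyCurve ∧
        W.IsResiduallyModularOfLevel P.p M := by
  constructor
  · rintro ⟨f, W, 𝔪, hf, hW, h𝔪, hp, hc⟩
    exact ⟨W, hW, f, 𝔪, hf, h𝔪, hp, hc⟩
  · rintro ⟨W, hW, f, 𝔪, hf, h𝔪, hp, hc⟩
    exact ⟨f, W, 𝔪, hf, hW, h𝔪, hp, hc⟩

/-- The Frey-package predicate in terms of maximal ideals of `HeckeAlg`. -/
theorem modularRepOfLevel_iff (P : FreyPackage) :
    P.ModularRepOfLevel M ↔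
      ∃ (W : WeierstrassCurve ℤ) (𝔪 : Ideal HeckeAlg), W.IsIntegralModelOf P.freyCurve ∧
        𝔪.IsMaximal ∧ (P.p : HeckeAlg) ∈ 𝔪 ∧
        RingHom.ker (CuspForm.heckeEvalForms M 2) ≤ 𝔪 ∧ CongruentTo W P.p M 𝔪 := by
  rw [modularRepOfLevel_iff_exists_model]
  constructor
  · rintro ⟨W, hW, h⟩
    obtain ⟨𝔪, h1, h2, h3, h4⟩ := exists_isMaximal_of_isResiduallyModularOfLevel W P.p h
    exact ⟨W, 𝔪, hW, h1, h2, h3, h4⟩
  · rintro ⟨W, 𝔪, hW, h1, h2, h3, h4⟩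
    have := h1
    exact ⟨W, hW, isResiduallyModularOfLevel_of_isMaximal W P.p 𝔪 h2 h3 h4⟩

end Fermat.Agent.Ribet.H344
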