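/-
RIBET row, piece G1c (helper344): every integral model of the Frey curve has bad reduction at
every odd prime dividing `abc`.

Proof without valuations: for `C • E = W_ℚ` one has `c₄(W)³ · Δ(E) = Δ(W) · c₄(E)³`, i.e.
`c₄(W)³ · (abc)^(2p) = 2⁸ · Δ(W) · (A² + AB + B²)³` with `A = a^p`, `B = b^p`; an odd prime `q ∣ abc`
does not divide `A² + AB + B²` (pairwise coprimality), hence divides `Δ(W)`.
-/
import Mathlib
import Fermat.Agent.Ribet.Spec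

set_option autoImplicit false

open WeierstrassCurve

namespace Fermat.Agent.Ribet.H344

variable (P : FreyPackage)

/-- `c₄` of the Frey curve. -/
theorem frey_c₄ :
    P.freyCurve.c₄ = ((P.a ^ P.p) ^ 2 + P.a ^ P.p * P.b ^ P.p + (P.b ^ P.p) ^ 2 : ℤ) := by
  simp only [WeierstrassCurve.c₄, WeierstrassCurve.b₂, WeierstrassCurve.b₄,
    FreyPackage.freyCurve]
  push_cast
  ring

/-- `2⁸ Δ` of the Frey curve. -/
theorem frey_Δ_mul :
    2 ^ 8 * P.freyCurve.Δ = ((P.a * P.b * P.c) ^ (2 * P.p) : ℤ) := by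
  have hFLT : ((P.c : ℚ)) ^ P.p = (P.a : ℚ) ^ P.p + (P.b : ℚ) ^ P.p := by
    exact_mod_cast P.hFLT.symm
  simp only [WeierstrassCurve.Δ, WeierstrassCurve.b₂, WeierstrassCurve.b₄, WeierstrassCurve.b₆,
    WeierstrassCurve.b₈, FreyPackage.freyCurve]
  push_cast
  rw [pow_mul', mul_pow, mul_pow, hFLT]
  ring

/-- An odd prime dividing `abc` does not divide `A² + AB + B²`. -/
theorem not_dvd_frey_c₄ {q : ℕ} (hq : q.Prime) (hqabc : (q : ℤ) ∣ P.a * P.b * P.c) :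
    ¬ (q : ℤ) ∣ (P.a ^ P.p) ^ 2 + P.a ^ P.p * P.b ^ P.p + (P.b ^ P.p) ^ 2 := by
  have hqp : Prime (q : ℤ) := Nat.prime_iff_prime_int.mp hq
  have hcop : ∀ x y : ℤ, gcd x y = 1 → (q : ℤ) ∣ x → (q : ℤ) ∣ y → False := by
    intro x y hg hx hy
    have h1 : (q : ℤ) ∣ gcd x y := dvd_gcd hx hy
    rw [hg] at h1
    exact hqp.not_dvd_one h1
  intro hdvd
  rcases hqp.dvd_or_dvd hqabc with hab | hc
  · rcases hqp.dvd_or_dvd hab with ha | hb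
    · -- q ∣ a
      have hA : (q : ℤ) ∣ P.a ^ P.p := dvd_pow ha P.hp0
      have h1 : (q : ℤ) ∣ (P.b ^ P.p) ^ 2 := by
        have : (P.b ^ P.p) ^ 2 = ((P.a ^ P.p) ^ 2 + P.a ^ P.p * P.b ^ P.p + (P.b ^ P.p) ^ 2)
            - P.a ^ P.p * (P.a ^ P.p + P.b ^ P.p) := by ring
        rw [this]
        exact dvd_sub hdvd (Dvd.dvd.mul_right hA _)
      exact hcop _ _ P.hgcdab ha (hqp.dvd_of_dvd_pow (hqp.dvd_of_dvd_pow h1))
    · -- q ∣ b
      have hB : (q : ℤ) ∣ P.b ^ P.p := dvd_pow hb P.hp0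
      have h1 : (q : ℤ) ∣ (P.a ^ P.p) ^ 2 := by
        have : (P.a ^ P.p) ^ 2 = ((P.a ^ P.p) ^ 2 + P.a ^ P.p * P.b ^ P.p + (P.b ^ P.p) ^ 2)
            - P.b ^ P.p * (P.a ^ P.p + P.b ^ P.p) := by ring
        rw [this]
        exact dvd_sub hdvd (Dvd.dvd.mul_right hB _)
      exact hcop _ _ P.hgcdab (hqp.dvd_of_dvd_pow (hqp.dvd_of_dvd_pow h1)) hb
  · -- q ∣ c
    have hC : (q : ℤ) ∣ P.a ^ P.p + P.b ^ P.p := by
      rw [P.hFLT]; exact dvd_pow hc P.hp0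
    have h1 : (q : ℤ) ∣ P.a ^ P.p * P.b ^ P.p := by
      have : P.a ^ P.p * P.b ^ P.p = (P.a ^ P.p + P.b ^ P.p) * (P.a ^ P.p + P.b ^ P.p)
          - ((P.a ^ P.p) ^ 2 + P.a ^ P.p * P.b ^ P.p + (P.b ^ P.p) ^ 2) := by ring
      rw [this]
      exact dvd_sub (Dvd.dvd.mul_right hC _) hdvd
    rcases hqp.dvd_or_dvd h1 with hA | hB
    · exact hcop _ _ P.hgcdac (hqp.dvd_of_dvd_pow hA) hc
    · exact hcop _ _ P.hgcdbc (hqp.dvd_of_dvd_pow hB) hc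

/-- **(G1c)** An integral model of the Frey curve is bad at every odd prime dividing `abc`. -/
theorem freyBadPrime : Spec.FreyBadPrimeStatement := by
  intro P W q hW hq hq2 hqabc hgood
  obtain ⟨C, hC⟩ := hW
  have hqp : Prime (q : ℤ) := Nat.prime_iff_prime_int.mp hq
  -- the two invariants transform with `u⁻¹ ^ 12` and `u⁻¹ ^ 4`
  have hΔ : ((W.Δ : ℤ) : ℚ) = (C.u⁻¹ : ℚˣ) ^ 12 * P.freyCurve.Δ := by
    have := WeierstrassCurve.variableChange_Δ P.freyCurve C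
    rw [hC, WeierstrassCurve.map_Δ] at this
    simpa using this
  have hc₄ : ((W.c₄ : ℤ) : ℚ) = (C.u⁻¹ : ℚˣ) ^ 4 * P.freyCurve.c₄ := by
    have := WeierstrassCurve.variableChange_c₄ P.freyCurve C
    rw [hC, WeierstrassCurve.map_c₄] at this
    simpa using this
  -- the key identity, first over `ℚ`, then over `ℤ`
  have key : ((W.c₄ ^ 3 * (P.a * P.b * P.c) ^ (2 * P.p) : ℤ) : ℚ)
      = ((2 ^ 8 * W.Δ * ((P.a ^ P.p) ^ 2 + P.a ^ P.p * P.b ^ P.p + (P.b ^ P.p) ^ 2) ^ 3 : ℤ) : ℚ) := by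
    have h1 := frey_Δ_mul P
    have h2 := frey_c₄ P
    push_cast at h1 h2 ⊢
    rw [hΔ, hc₄, ← h1, h2]
    ring
  have keyZ : W.c₄ ^ 3 * (P.a * P.b * P.c) ^ (2 * P.p)
      = 2 ^ 8 * W.Δ * ((P.a ^ P.p) ^ 2 + P.a ^ P.p * P.b ^ P.p + (P.b ^ P.p) ^ 2) ^ 3 :=
    Int.cast_injective key
  -- `q` divides the left-hand side
  have hL : (q : ℤ) ∣ 2 ^ 8 * W.Δ * ((P.a ^ P.p) ^ 2 + P.a ^ P.p * P.b ^ P.p + (P.b ^ P.p) ^ 2) ^ 3 := by
    rw [← keyZ]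
    exact Dvd.dvd.mul_left (dvd_pow hqabc (by have := P.hp0; omega)) _
  rcases hqp.dvd_or_dvd hL with h | h
  · rcases hqp.dvd_or_dvd h with h2 | hΔ'
    · -- `q ∣ 2 ^ 8`
      have h3 : (q : ℤ) ∣ 2 := hqp.dvd_of_dvd_pow h2
      have h4 : q ∣ 2 := by exact_mod_cast h3
      exact hq2 ((Nat.prime_dvd_prime_iff_eq hq Nat.prime_two).mp h4)
    · exact hgood hΔ'
  · exact not_dvd_frey_c₄ P hq hqabc (hqp.dvd_of_dvd_pow h)

end Fermat.Agent.Ribet.H344
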